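import Fermat.Agent.S15.H782.NodeExists
import Fermat.Agent.S05.XOnlyFormulas
import Fermat.Agent.S05.GoodRed
import Fermat.Agent.S05.C1b

/-!
# S59 / LO leaf FlatPeu (helper461): valuations near the node

`K` a valued field, `W` a Weierstrass curve with `v`-integral coefficients and a node model `M`
(`Fermat.Agent.S13.H365.NodeModel`: multiplicative reduction), `v 2 = 1`.

* `nodeCentre W = (18 b₆ - b₂ b₄) / c₄` is a RATIONAL centre of the node:
  `v (nodeCentre W - M.e) = v M.a` (`val_nodeCentre_sub`), so `v (x - nodeCentre W) = v (x - M.e)`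
  for the points `x` of the annulus `v M.a < v (x - M.e)`;
* `val_sub_node_lt_one` : an integral point with singular reduction has `v (x - M.e) < 1`;
* `val_shift_sq_le` : for `P = (x₁, y₁)` in the annulus and `T = (x₂, y₂)` in the kernel of
  reduction, `v (x(P + T) - x₁) ^ 2 * v x₂ ≤ v (x₁ - M.e) ^ 2`.
-/

set_option autoImplicit false
set_option linter.unusedSectionVars false
set_option linter.unusedVariables false
set_option linter.style.haveILetI false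

namespace Fermat.Agent.S59.H461

open WeierstrassCurve WeierstrassCurve.Affine
open Fermat.Agent.S05.SameRed (IntegralCoeffs InKer)
open Fermat.Agent.S13.H365
open Fermat.Agent.S05

variable {K : Type*} [Field K] {Γ₀ : Type*} [LinearOrderedCommGroupWithZero Γ₀]
  {v : Valuation K Γ₀} {W : Affine K}

/-- the rational centre of the node -/
noncomputable def nodeCentre (W : Affine K) : K := (18 * W.b₆ - W.b₂ * W.b₄) / W.c₄

section identities

variable [DecidableEq K]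

lemma nodeModel_b₂ (M : NodeModel v W) : W.b₂ = (M.γ₁ - M.γ₂) ^ 2 - 12 * M.e := by
  simp only [WeierstrassCurve.b₂]
  rw [M.a₂_eq, M.a₁_eq]
  ring

lemma nodeModel_b₄ (M : NodeModel v W) :
    W.b₄ = 2 * M.a - M.e * (M.γ₁ - M.γ₂) ^ 2 + 6 * M.e ^ 2 := by
  simp only [WeierstrassCurve.b₄]
  rw [M.a₄_eq, M.a₃_eq, M.a₁_eq]
  ring

lemma nodeModel_b₆ (M : NodeModel v W) :
    W.b₆ = -(4 * M.a * M.e) + M.e ^ 2 * (M.γ₁ - M.γ₂) ^ 2 - 4 * M.e ^ 3 := by
  simp only [WeierstrassCurve.b₆]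
  rw [M.a₆_eq, M.a₄_eq, M.a₃_eq, M.a₂_eq, M.a₁_eq]
  ring

lemma nodeModel_c₄ (M : NodeModel v W) : W.c₄ = (M.γ₁ - M.γ₂) ^ 4 - 48 * M.a := by
  simp only [WeierstrassCurve.c₄]
  rw [nodeModel_b₂ M, nodeModel_b₄ M]
  ring

lemma nodeCentre_sub (M : NodeModel v W) (hc : W.c₄ ≠ 0) :
    nodeCentre W - M.e = -(2 * M.a * (M.γ₁ - M.γ₂) ^ 2) / W.c₄ := by
  have h : 18 * W.b₆ - W.b₂ * W.b₄ - M.e * W.c₄ = -(2 * M.a * (M.γ₁ - M.γ₂) ^ 2) := by
    rw [nodeModel_c₄ M, nodeModel_b₂ M, nodeModel_b₄ M, nodeModel_b₆ M]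
    ring
  rw [nodeCentre, eq_div_iff hc, sub_mul, div_mul_cancel₀ _ hc]
  exact h

/-- `2 sumNum - 4 x₁ (x₁ - x₂)²` in the coordinates centred at the node. -/
lemma sumNum_node (M : NodeModel v W) (x₁ x₂ : K) :
    2 * XOnly.sumNum W x₁ x₂ - 4 * (x₁ - x₂) ^ 2 * x₁ =
      (x₂ - M.e) * (12 * (x₁ - M.e) ^ 2 + 2 * (M.γ₁ - M.γ₂) ^ 2 * (x₁ - M.e) + 4 * M.a)
        + (4 * M.a * (x₁ - M.e) - 4 * (x₁ - M.e) ^ 3) := by
  simp only [XOnly.sumNum]
  rw [nodeModel_b₂ M, nodeModel_b₄ M, nodeModel_b₆ M]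
  ring

/-- `η² = 4ξ³ + δ²ξ² + 4aξ`. -/
lemma twoF_node (M : NodeModel v W) (x : K) :
    XOnly.twoF W x =
      4 * (x - M.e) ^ 3 + (M.γ₁ - M.γ₂) ^ 2 * (x - M.e) ^ 2 + 4 * M.a * (x - M.e) := by
  simp only [XOnly.twoF]
  rw [nodeModel_b₂ M, nodeModel_b₄ M, nodeModel_b₆ M]
  ring

end identities

section valuations

variable [DecidableEq K]

lemma val_four_h461 (h2 : v (2 : K) = 1) : v (4 : K) = 1 := by
  have : (4 : K) = 2 * 2 := by norm_num
  rw [this, map_mul, h2, one_mul]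

lemma val_ofNat_le_one_h461 (n : ℕ) : v (n : K) ≤ 1 := by
  induction n with
  | zero => simp
  | succ n ih =>
    push_cast
    exact (v.map_add _ _).trans (max_le ih (by rw [map_one]))

/-- `v (nodeCentre W - M.e) = v M.a`. -/
lemma val_nodeCentre_sub (M : NodeModel v W) (h2 : v (2 : K) = 1) (hc₄ : v W.c₄ = 1) :
    v (nodeCentre W - M.e) = v M.a := by
  have hc : W.c₄ ≠ 0 := by
    intro h
    rw [h, map_zero] at hc₄
    exact zero_ne_one hc₄
  rw [nodeCentre_sub M hc, map_div₀, hc₄, div_one, Valuation.map_neg, map_mul, map_mul, h2,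
    one_mul, map_pow, M.hδ, one_pow, mul_one]

/-- On the annulus, the distance to the rational centre is the distance to `M.e`. -/
lemma val_sub_nodeCentre (M : NodeModel v W) (h2 : v (2 : K) = 1) (hc₄ : v W.c₄ = 1)
    {x : K} (hx : v M.a < v (x - M.e)) : v (x - nodeCentre W) = v (x - M.e) := by
  have e : x - nodeCentre W = (x - M.e) - (nodeCentre W - M.e) := by ring
  rw [e]
  exact Valuation.map_sub_eq_of_lt_left _ (by rw [val_nodeCentre_sub M h2 hc₄]; exact hx)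

/-- An integral point with singular reduction reduces to the node. -/
lemma val_sub_node_lt_one (M : NodeModel v W) (hW : IntegralCoeffs W v) (he : v M.e ≤ 1)
    {x y : K} (h : W.Equation x y) (hx : v x ≤ 1)
    (hgX : v (W.a₁ * y - (3 * x ^ 2 + 2 * W.a₂ * x + W.a₄)) < 1)
    (hgY : v (2 * y + W.a₁ * x + W.a₃) < 1) : v (x - M.e) < 1 := by
  have hy := GoodRed.val_y_le_one hW h hx
  have hle : v (x - M.e) ≤ 1 := (v.map_sub _ _).trans (max_le hx he)
  refine lt_of_le_of_ne hle fun heq => ?_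
  rcases M.nonsingular_red hW h hx hy heq with h1 | h1
  · exact hgX.ne h1
  · exact hgY.ne h1

/-- `v η² = v x ³` at a point of the kernel of reduction. -/
lemma val_eta_sq_of_large (hW : IntegralCoeffs W v) (h2 : v (2 : K) = 1) {x y : K}
    (h : W.Equation x y) (hx : 1 < v x) :
    v (XOnly.eta W x y) ^ 2 = v x ^ 3 := by
  have hI := C1b.isIntegralAt_of_integralCoeffs hW
  have h4 : v (4 : K) = 1 := val_four_h461 h2
  have e := XOnly.eta_sq W h
  simp only [XOnly.twoF] at e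
  rw [← map_pow, e]
  have hmain : v (4 * x ^ 3) = v x ^ 3 := by rw [map_mul, h4, one_mul, map_pow]
  have h1 : v (W.b₂ * x ^ 2) < v x ^ 3 := by
    rw [map_mul, map_pow]
    calc v W.b₂ * v x ^ 2 ≤ 1 * v x ^ 2 := mul_le_mul_left (FG.v_b₂ hI) _
      _ = v x ^ 2 := one_mul _
      _ < v x ^ 3 := pow_lt_pow_right₀ hx (by norm_num)
  have h3 : v (2 * W.b₄ * x) < v x ^ 3 := by
    rw [map_mul, map_mul, h2, one_mul]
    calc v W.b₄ * v x ≤ 1 * v x := mul_le_mul_left (FG.v_b₄ hI) _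
      _ = v x ^ 1 := by rw [one_mul, pow_one]
      _ < v x ^ 3 := pow_lt_pow_right₀ hx (by norm_num)
  have h6 : v W.b₆ < v x ^ 3 :=
    lt_of_le_of_lt (FG.v_b₆ hI) (one_lt_pow₀ hx (by norm_num))
  rw [add_assoc, add_assoc, v.map_add_eq_of_lt_left, hmain]
  rw [hmain]
  exact lt_of_le_of_lt (v.map_add _ _) (max_lt h1
    (lt_of_le_of_lt (v.map_add _ _) (max_lt h3 h6)))

/-- **The shift bound.**  For `P = (x₁, y₁)` in the annulus around the node and `T = (x₂, y₂)` in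
the kernel of reduction: `v (x(P + T) - x(P)) ^ 2 * v (x T) ≤ v (x(P) - e) ^ 2`. -/
theorem val_shift_sq_le (M : NodeModel v W) (hW : IntegralCoeffs W v) (he : v M.e ≤ 1)
    (h2 : v (2 : K) = 1)
    {x₁ y₁ x₂ y₂ : K} (h₁ : W.Nonsingular x₁ y₁) (h₂ : W.Nonsingular x₂ y₂)
    (hlo : v M.a < v (x₁ - M.e)) (hhi : v (x₁ - M.e) < 1) (hx₂ : 1 < v x₂)
    {xp yp : K} (hp : W.Nonsingular xp yp)
    (hadd : Point.some x₁ y₁ h₁ + Point.some x₂ y₂ h₂ = Point.some xp yp hp) :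
    v (xp - x₁) ^ 2 * v x₂ ≤ v (x₁ - M.e) ^ 2 := by
  have h4 : v (4 : K) = 1 := val_four_h461 h2
  set g := v (x₁ - M.e) with hg
  set G := v x₂ with hG
  have hGpos : 0 < G := lt_trans zero_lt_one hx₂
  have hG1 : 1 ≤ G := hx₂.le
  have hg1 : g ≤ 1 := hhi.le
  have hx₁ : v x₁ ≤ 1 := by
    have e : x₁ = (x₁ - M.e) + M.e := by ring
    rw [e]
    exact (v.map_add _ _).trans (max_le hg1 he)
  have hne : x₁ ≠ x₂ := by
    rintro rfl
    exact absurd hx₂ (not_lt.mpr hx₁)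
  obtain ⟨xp', yp', xm, ym, hp', hm', hadd', -, e1, -⟩ := XOnly.add_sub_of_X_ne W h₁ h₂ hne
  have hxp : xp = xp' := by
    have h := hadd.symm.trans hadd'
    simp only [Point.some.injEq] at h
    exact h.1
  subst hxp
  -- the key identity
  have key : 4 * (x₁ - x₂) ^ 2 * (xp - x₁) =
      (x₂ - M.e) * (12 * (x₁ - M.e) ^ 2 + 2 * (M.γ₁ - M.γ₂) ^ 2 * (x₁ - M.e) + 4 * M.a)
        + (4 * M.a * (x₁ - M.e) - 4 * (x₁ - M.e) ^ 3)
        - 2 * XOnly.eta W x₁ y₁ * XOnly.eta W x₂ y₂ := by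
    linear_combination e1 + sumNum_node M x₁ x₂
  -- valuations of the pieces
  have hva : v M.a ≤ g := hlo.le
  have hξ₂ : v (x₂ - M.e) = G :=
    Valuation.map_sub_eq_of_lt_left _ (lt_of_le_of_lt he hx₂)
  have hx12 : v (x₁ - x₂) = G := by
    rw [Valuation.map_sub_swap]
    exact Valuation.map_sub_eq_of_lt_left _ (lt_of_le_of_lt hx₁ hx₂)
  have h12 : v (12 : K) ≤ 1 := by exact_mod_cast val_ofNat_le_one_h461 (v := v) 12
  have hF : v (12 * (x₁ - M.e) ^ 2 + 2 * (M.γ₁ - M.γ₂) ^ 2 * (x₁ - M.e) + 4 * M.a) ≤ g := by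
    refine (v.map_add _ _).trans (max_le ((v.map_add _ _).trans (max_le ?_ ?_)) ?_)
    · rw [map_mul, map_pow, ← hg]
      calc v (12 : K) * g ^ 2 ≤ 1 * g ^ 2 := mul_le_mul_left h12 _
        _ = g * g := by rw [one_mul, pow_two]
        _ ≤ g * 1 := mul_le_mul_right hg1 _
        _ = g := mul_one _
    · rw [map_mul, map_mul, map_pow, h2, M.hδ, one_pow, one_mul, one_mul]
    · rw [map_mul, h4, one_mul]
      exact hva
  have hR : v (4 * M.a * (x₁ - M.e) - 4 * (x₁ - M.e) ^ 3) ≤ g := by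
    refine (v.map_sub _ _).trans (max_le ?_ ?_)
    · rw [map_mul, map_mul, h4, one_mul, ← hg]
      calc v M.a * g ≤ 1 * g := mul_le_mul_left (M.ha.le) _
        _ = g := one_mul _
    · rw [map_mul, map_pow, h4, one_mul, ← hg]
      calc g ^ 3 = g ^ 2 * g := pow_succ g 2
        _ ≤ 1 * g := mul_le_mul_left (pow_le_one₀ zero_le hg1) _
        _ = g := one_mul _
  have hη₁ : v (XOnly.eta W x₁ y₁) ^ 2 ≤ g ^ 2 := by
    rw [← map_pow, XOnly.eta_sq W h₁.1, twoF_node M x₁]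
    refine (v.map_add _ _).trans (max_le ((v.map_add _ _).trans (max_le ?_ ?_)) ?_)
    · rw [map_mul, map_pow, h4, one_mul, ← hg]
      calc g ^ 3 = g ^ 2 * g := pow_succ g 2
        _ ≤ g ^ 2 * 1 := mul_le_mul_right hg1 _
        _ = g ^ 2 := mul_one _
    · rw [map_mul, map_pow, map_pow, M.hδ, one_pow, one_mul]
    · rw [map_mul, map_mul, h4, one_mul, ← hg, pow_two]
      exact mul_le_mul_left hva _
  have hη₂ : v (XOnly.eta W x₂ y₂) ^ 2 = G ^ 3 := val_eta_sq_of_large hW h2 h₂.1 hx₂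
  -- the numerator
  set d := v (xp - x₁) with hd
  have hN : v (4 * (x₁ - x₂) ^ 2 * (xp - x₁)) = G ^ 2 * d := by
    rw [map_mul, map_mul, map_pow, h4, one_mul, hx12]
  have hG3 : (0 : Γ₀) < G ^ 3 := pow_pos hGpos 3
  have hbound : v (4 * (x₁ - x₂) ^ 2 * (xp - x₁)) ≤ G * g ∨
      v (4 * (x₁ - x₂) ^ 2 * (xp - x₁)) ≤
        v (XOnly.eta W x₁ y₁) * v (XOnly.eta W x₂ y₂) := by
    rw [key]
    have hA : v ((x₂ - M.e) *
        (12 * (x₁ - M.e) ^ 2 + 2 * (M.γ₁ - M.γ₂) ^ 2 * (x₁ - M.e) + 4 * M.a)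
        + (4 * M.a * (x₁ - M.e) - 4 * (x₁ - M.e) ^ 3)) ≤ G * g := by
      refine (v.map_add _ _).trans (max_le ?_ ?_)
      · rw [map_mul, hξ₂]
        exact mul_le_mul_right hF _
      · calc v (4 * M.a * (x₁ - M.e) - 4 * (x₁ - M.e) ^ 3) ≤ g := hR
          _ = 1 * g := (one_mul _).symm
          _ ≤ G * g := mul_le_mul_left hG1 _
    have hB : v (2 * XOnly.eta W x₁ y₁ * XOnly.eta W x₂ y₂) =
        v (XOnly.eta W x₁ y₁) * v (XOnly.eta W x₂ y₂) := by
      rw [map_mul, map_mul, h2, one_mul]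
    rcases le_total (v (2 * XOnly.eta W x₁ y₁ * XOnly.eta W x₂ y₂))
      (v ((x₂ - M.e) *
        (12 * (x₁ - M.e) ^ 2 + 2 * (M.γ₁ - M.γ₂) ^ 2 * (x₁ - M.e) + 4 * M.a)
        + (4 * M.a * (x₁ - M.e) - 4 * (x₁ - M.e) ^ 3))) with hle | hle
    · left
      exact (v.map_sub _ _).trans (max_le hA (hle.trans hA))
    · right
      rw [← hB]
      exact (v.map_sub _ _).trans (max_le hle le_rfl)
  have hsq : (G ^ 2 * d) ^ 2 ≤ g ^ 2 * G ^ 3 := by
    rw [← hN]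
    rcases hbound with hb | hb
    · calc v (4 * (x₁ - x₂) ^ 2 * (xp - x₁)) ^ 2 ≤ (G * g) ^ 2 :=
            pow_le_pow_left₀ zero_le hb 2
        _ = g ^ 2 * G ^ 2 := by rw [mul_pow, mul_comm]
        _ ≤ g ^ 2 * G ^ 3 := mul_le_mul_right (pow_le_pow_right₀ hG1 (by norm_num)) _
    · calc v (4 * (x₁ - x₂) ^ 2 * (xp - x₁)) ^ 2
          ≤ (v (XOnly.eta W x₁ y₁) * v (XOnly.eta W x₂ y₂)) ^ 2 :=
            pow_le_pow_left₀ zero_le hb 2
        _ = v (XOnly.eta W x₁ y₁) ^ 2 * G ^ 3 := by rw [mul_pow, hη₂]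
        _ ≤ g ^ 2 * G ^ 3 := mul_le_mul_left hη₁ _
  have hfin : G ^ 3 * (d ^ 2 * G) ≤ G ^ 3 * g ^ 2 := by
    calc G ^ 3 * (d ^ 2 * G) = (G ^ 2 * d) ^ 2 := by
          simp only [pow_succ, pow_zero, one_mul]; ac_rfl
      _ ≤ g ^ 2 * G ^ 3 := hsq
      _ = G ^ 3 * g ^ 2 := mul_comm _ _
  exact (mul_le_mul_iff_right₀ hG3).mp hfin

end valuations

end Fermat.Agent.S59.H461
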