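import Fermat.Agent.S59.H461.FlatPeuKer
import Fermat.Agent.S59.H461.FlatPeuNode

/-!
# S59 / LO leaf FlatPeu (helper461): the `p`-torsion outside the kernel of reduction

`W : WeierstrassCurve ℤ` with multiplicative reduction at the odd prime `p`, `A` a place of `ℚ̄`
over `p`, `E = curveQbar W`, `M` a node model of `E` at `A`, `c = nodeCentre E` (a rational number).
For `P = (x, y) ∈ E[p]` outside the kernel of reduction:

* `annulus_of_torsion`  : `v a < v (x - e) < 1` and `v (x - c) = v (x - e)`;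
* `val_pow_of_torsion`  : `v (x - c) ^ p = v p ^ m` with `p ∤ m`, if `p ∤ v_p(Δ)`;
* `val_shift_pow_le`    : `v (x(P + T) - x(P)) ^ (p - 1) ≤ v p * v (x - c) ^ (p - 1)` for
  `T ∈ E[p]` in the kernel of reduction.
-/

set_option autoImplicit false
set_option linter.unusedSectionVars false
set_option linter.unusedVariables false
set_option linter.style.haveILetI false

namespace Fermat.Agent.S59.H461

open WeierstrassCurve WeierstrassCurve.Affine
open Fermat.Agent.S05.SameRed (InKer IntegralCoeffs)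
open Fermat.Agent.S51.Five (xc xc_some)
open Fermat.Agent.S59.H396 Fermat.Agent.S59.H899
open Fermat.Agent.S13.H365
open Fermat.Agent.S59.H240 (rad gX gY)
open Fermat.Agent.Lib.Red.H290 (inKer_add inKer_neg inKer_sub)

local notation "Qb" => AlgebraicClosure ℚ

variable (W : WeierstrassCurve ℤ) (A : ValuationSubring Qb)

/-- the valuation of a nonzero integer at a place over `p` -/
lemma val_intCast_eq_pow_h461 {p : ℕ} [hp : Fact p.Prime] (hA : A.LiesOverPrime p) {z : ℤ}
    (hz : z ≠ 0) :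
    A.valuation ((z : ℤ) : Qb) = A.valuation (p : Qb) ^ padicValInt p z := by
  obtain ⟨c, hc⟩ := padicValInt_dvd (p := p) z
  have hnd : ¬ (p : ℤ) ∣ c := by
    intro hdvd
    obtain ⟨d, hd⟩ := hdvd
    have h1 : (p : ℤ) ^ (padicValInt p z + 1) ∣ z :=
      ⟨d, by conv_lhs => rw [hc, hd]
             ring⟩
    rcases (padicValInt_dvd_iff _ _).mp h1 with h | h
    · exact hz h
    · omega
  have h1 := val_intCast_eq_one hA hp.out hnd
  have e : ((z : ℤ) : Qb) = (p : Qb) ^ padicValInt p z * ((c : ℤ) : Qb) := by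
    conv_lhs => rw [hc]
    push_cast
    rfl
  rw [e, map_mul, map_pow, h1, mul_one]

variable {W A}

lemma val_two_eq_one_h461 {p : ℕ} [hp : Fact p.Prime] (hp2 : p ≠ 2) (hA : A.LiesOverPrime p) :
    A.valuation (2 : Qb) = 1 := by
  have h : ¬ (p : ℤ) ∣ 2 := by
    intro h
    have h' : p ∣ 2 := by exact_mod_cast h
    exact hp2 ((Nat.prime_dvd_prime_iff_eq hp.out Nat.prime_two).mp h')
  have := val_intCast_eq_one hA hp.out h
  simpa using this

section mult

variable {p : ℕ} [hp : Fact p.Prime] (hp2 : p ≠ 2) (hΔ : W.Δ ≠ 0)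
  (hbad : (p : ℤ) ∣ W.Δ) (hc₄ : ¬ (p : ℤ) ∣ W.c₄) (hA : A.LiesOverPrime p)

include hp2 hΔ hbad hc₄ hA

/-- a node model at a place over a multiplicative prime -/
theorem exists_nodeModel_h461 :
    ∃ M : NodeModel A.valuation (curveQbar W), A.valuation M.e ≤ 1 := by
  have hW := integralCoeffs W A
  have hc : A.valuation (curveQbar W).c₄ = 1 := by
    rw [curveQbar_c₄]
    exact val_intCast_eq_one hA hp.out hc₄
  have hΔv : A.valuation (curveQbar W).Δ < 1 := by
    rw [curveQbar_Δ]
    exact val_intCast_lt_one hA hbad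
  have hΔ0 : (curveQbar W).Δ ≠ 0 := by
    rw [curveQbar_Δ]
    exact_mod_cast hΔ
  exact Fermat.Agent.S15.H782.exists_nodeModel two_ne_zero hW hc hΔv hΔ0

/-- **The annulus.** An integral point of order `p` lies in the open annulus around the node. -/
theorem annulus_of_torsion (M : NodeModel A.valuation (curveQbar W)) (he : A.valuation M.e ≤ 1)
    {x y : Qb} (h : (curveQbar W).Nonsingular x y) (hP : p • Point.some x y h = 0)
    (hx : A.valuation x ≤ 1) :
    A.valuation M.a < A.valuation (x - M.e) ∧ A.valuation (x - M.e) < 1 ∧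
      A.valuation (x - nodeCentre (curveQbar W)) = A.valuation (x - M.e) ∧
      ∃ j : ℕ, 0 < j ∧ 2 * j < p ∧ A.valuation (x - M.e) ^ p = A.valuation M.a ^ (2 * j) := by
  have hW := integralCoeffs W A
  have hc : A.valuation (curveQbar W).c₄ = 1 := by
    rw [curveQbar_c₄]
    exact val_intCast_eq_one hA hp.out hc₄
  have h2 : A.valuation (2 : Qb) = 1 := val_two_eq_one_h461 hp2 hA
  have hMT := multTorsion_curveQbar hp2 hΔ hbad hc₄ hA
  have hrad := hMT.rad 1 h (by rw [pow_one]; exact hP) hx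
  rw [rad, max_lt_iff] at hrad
  have hlt : A.valuation (x - M.e) < 1 := val_sub_node_lt_one M hW he h.1 hx hrad.1 hrad.2
  obtain ⟨hlo, j, hj⟩ := M.torsion_near_node (hp.out.odd_of_ne_two hp2) h hP hlt
  have hcen := val_sub_nodeCentre M h2 hc hlo
  have ha0 : 0 < A.valuation M.a := zero_lt_iff.mpr ((Valuation.ne_zero_iff _).mpr M.ha0)
  have ha1 : A.valuation M.a < 1 := M.ha
  have hj1 : A.valuation M.a ^ (2 * j) < 1 := by
    rw [← hj]
    exact pow_lt_one₀ zero_le hlt hp.out.ne_zero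
  have hj2 : A.valuation M.a ^ p < A.valuation M.a ^ (2 * j) := by
    rw [← hj]
    exact pow_lt_pow_left₀ hlo zero_le hp.out.ne_zero
  have hjpos : 0 < j := by
    rcases Nat.eq_zero_or_pos j with h0 | h0
    · rw [h0, mul_zero, pow_zero] at hj1
      exact absurd hj1 (lt_irrefl _)
    · exact h0
  have hjlt : 2 * j < p := (pow_lt_pow_iff_right_of_lt_one₀ ha0 ha1).mp hj2
  exact ⟨hlo, hlt, hcen, j, hjpos, hjlt, hj⟩

/-- **The valuation of `x - c`** for a `p`-torsion point outside the kernel of reduction, when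
`p ∤ v_p(Δ)`. -/
theorem val_pow_of_torsion (hpeu : ¬ (p : ℤ) ∣ ((padicValInt p W.Δ : ℕ) : ℤ))
    (M : NodeModel A.valuation (curveQbar W)) (he : A.valuation M.e ≤ 1)
    {x y : Qb} (h : (curveQbar W).Nonsingular x y) (hP : p • Point.some x y h = 0)
    (hx : A.valuation x ≤ 1) :
    ∃ m : ℤ, ¬ (p : ℤ) ∣ m ∧
      A.valuation (x - nodeCentre (curveQbar W)) ^ p = A.valuation (p : Qb) ^ m := by
  obtain ⟨hlo, hlt, hcen, j, hjpos, hjlt, hj⟩ :=
    annulus_of_torsion hp2 hΔ hbad hc₄ hA M he h hP hx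
  have hΔv : A.valuation (curveQbar W).Δ = A.valuation (p : Qb) ^ padicValInt p W.Δ := by
    rw [curveQbar_Δ]
    exact val_intCast_eq_pow_h461 A hA hΔ
  have hMa : A.valuation M.a ^ 2 = A.valuation (p : Qb) ^ padicValInt p W.Δ := by
    rw [← Fermat.Agent.S15.H782.nodeModel_val_Δ M, hΔv]
  refine ⟨((padicValInt p W.Δ * j : ℕ) : ℤ), ?_, ?_⟩
  · intro hdvd
    have h' : p ∣ padicValInt p W.Δ * j := by exact_mod_cast hdvd
    rcases (Nat.Prime.dvd_mul hp.out).mp h' with h1 | h1
    · exact hpeu (by exact_mod_cast h1)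
    · have := Nat.le_of_dvd hjpos h1
      omega
  · rw [hcen, hj, pow_mul, hMa, ← pow_mul, zpow_natCast]

/-- **The shift bound.** -/
theorem val_shift_pow_le (M : NodeModel A.valuation (curveQbar W)) (he : A.valuation M.e ≤ 1)
    {x₁ y₁ : Qb} (h₁ : (curveQbar W).Nonsingular x₁ y₁) (hP : p • Point.some x₁ y₁ h₁ = 0)
    (hx₁ : A.valuation x₁ ≤ 1)
    (T : (curveQbar W).Point) (hTp : p • T = 0) (hT : InKer (curveQbar W) A.valuation T) :
    A.valuation (xc (Point.some x₁ y₁ h₁ + T) - x₁) ^ (p - 1) ≤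
      A.valuation (p : Qb) * A.valuation (x₁ - nodeCentre (curveQbar W)) ^ (p - 1) := by
  obtain ⟨hlo, hlt, hcen, -⟩ := annulus_of_torsion hp2 hΔ hbad hc₄ hA M he h₁ hP hx₁
  have hW := integralCoeffs W A
  have h2 : A.valuation (2 : Qb) = 1 := val_two_eq_one_h461 hp2 hA
  have hp1 : p - 1 ≠ 0 := by
    have := hp.out.two_le
    omega
  rcases T with _ | ⟨x₂, y₂, h₂⟩
  · have e : Point.some x₁ y₁ h₁ + (Point.zero : (curveQbar W).Point) = Point.some x₁ y₁ h₁ :=
      add_zero _
    rw [e, xc_some, sub_self, map_zero, zero_pow hp1]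
    exact zero_le
  · have hx₂ : 1 < A.valuation x₂ := hT
    obtain ⟨m, hm⟩ : ∃ m, p = 2 * m + 1 := hp.out.odd_of_ne_two hp2
    have hT0 : Point.some x₂ y₂ h₂ ≠ 0 := Point.some_ne_zero h₂
    have hv := val_xc_of_inKer_mult W A hp2 hΔ hbad hc₄ hA m hm _ hT0 hTp
      (by rw [xc_some]; exact hx₂)
    rw [xc_some] at hv
    rcases hQ : Point.some x₁ y₁ h₁ + Point.some x₂ y₂ h₂ with _ | ⟨xp, yp, hp'⟩
    · exfalso
      have e : Point.some x₁ y₁ h₁ = - Point.some x₂ y₂ h₂ := eq_neg_of_add_eq_zero_left hQ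
      have hk : InKer (curveQbar W) A.valuation (Point.some x₁ y₁ h₁) := by
        rw [e]
        exact inKer_neg hT
      exact absurd hk (not_lt.mpr hx₁)
    · rw [xc_some, hcen]
      have key := val_shift_sq_le M hW he h2 h₁ h₂ hlo hlt hx₂ hp' hQ
      have hpm : p - 1 = 2 * m := by omega
      rw [hpm, pow_mul, pow_mul]
      have h3 : (A.valuation (xp - x₁) ^ 2 * A.valuation x₂) ^ m ≤
          (A.valuation (x₁ - M.e) ^ 2) ^ m := pow_le_pow_left₀ zero_le key m
      rw [mul_pow] at h3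
      calc (A.valuation (xp - x₁) ^ 2) ^ m
          = (A.valuation (xp - x₁) ^ 2) ^ m * (A.valuation (p : Qb) * A.valuation x₂ ^ m) := by
            rw [hv, mul_one]
        _ = A.valuation (p : Qb) * ((A.valuation (xp - x₁) ^ 2) ^ m * A.valuation x₂ ^ m) := by
            ac_rfl
        _ ≤ A.valuation (p : Qb) * (A.valuation (x₁ - M.e) ^ 2) ^ m :=
            mul_le_mul_right h3 _

end mult

end Fermat.Agent.S59.H461
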