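import Fermat.Agent.S59.H461.PeuTres
import Fermat.Agent.S59.H461.FlatPeuLoc
import Fermat.Agent.S59.H934.LevelOpt
import Fermat.Agent.S19.H435.FlatGlue
import Fermat.Agent.S56.H66.FlatTame
import Fermat.Agent.S56.H664.FlatUnit
import Fermat.Agent.Ribet.H420.TameVal
import Fermat.Agent.A2.IF.H429.Inertia

/-!
# S59 / cell LO, leaf FlatPeu (helper461): flat at `p` ⇒ peu ramifié

`flatPeu : Fermat.Agent.S59.H934.FlatPeuStatement`:  for a semistable `W : WeierstrassCurve ℤ`,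
`Δ ≠ 0`, `p ∈ {3, 5}`, if the Prelude's `E[p]` is flat at `p` then `p ∣ v_p(Δ)`.

Proof.  If `p ∤ Δ` then `v_p(Δ) = 0`.  Otherwise the reduction at `p` is multiplicative; assume
`p ∤ v_p(Δ)`.  Let `A` be a place of `ℚ̄` over `p`, `I` its inertia group, `ζ` a primitive `p`-th
root of unity and `𝓗 = {s ∈ I : s ζ = ζ}`.

* `E[p] ∩ E₁ = ⟨t⟩` has order `p` (`exists_generator_mult`), `I` stabilises it and
  `σ x - x ∈ ⟨t⟩` for `σ ∈ I` (`S59.H396.inKer_smul_sub`).
* Flatness gives a Hopf lattice on `E[p]` (`S19.H435`); by (FT) of row S56 inertia acts on `t`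
  trivially or by the cyclotomic character, so `𝓗` fixes `t`; by (FU) there is a unit `B` with
  `s B = ζ ^ n(s) B` on `𝓗`, where `s x₀ = x₀ + n(s) t` for a fixed `x₀ ∈ E[p]`, `x₀ ∉ E₁`.
* The family `X i = x(x₀ + i t) - c` (`c` the rational centre of the node) satisfies
  `s (X i) = X (i + n s)`, `v (X 0) ^ p = v p ^ m` with `p ∤ m` (`val_pow_of_torsion`) and
  `v (X i - X 0) ^ (p-1) ≤ v p * v (X 0) ^ (p-1)` (`val_shift_pow_le`).
* `PeuTres.no_unit_of_family` : contradiction.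
-/

set_option autoImplicit false
set_option linter.unusedSectionVars false
set_option linter.unusedVariables false
set_option linter.style.haveILetI false

namespace Fermat.Agent.S59.H461

open WeierstrassCurve WeierstrassCurve.Affine WeierstrassCurve.Affine.Point
open Fermat.Agent.S05.SameRed (InKer IntegralCoeffs)
open Fermat.Agent.S51.Five (xc xc_some xc_galois_smul)
open Fermat.Agent.S59.H396 Fermat.Agent.S59.H899
open Fermat.Agent.S13.H365
open Fermat.Agent.Ribet.H420 (InTame)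
open Fermat.Agent.S19.H435 (Zl IsHopfLattice)

local notation "Qb" => AlgebraicClosure ℚ
local notation "GalQ" => (AlgebraicClosure ℚ ≃ₐ[ℚ] AlgebraicClosure ℚ)

/-- There is a valuation subring of `ℚ̄` over every prime number. -/
theorem exists_place_h461 (ℓ : ℕ) (hℓ : ℓ.Prime) :
    ∃ A : ValuationSubring Qb, A.LiesOverPrime ℓ := by
  let A₀ : Subring Qb := (algebraMap ℤ Qb).range
  let l₀ : A₀ := ⟨(ℓ : Qb), ⟨(ℓ : ℤ), by simp⟩⟩
  have hI : Ideal.span {l₀} ≠ ⊤ := by
    intro h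
    rw [Ideal.span_singleton_eq_top] at h
    obtain ⟨⟨m, n, rfl⟩, hm⟩ := h.exists_right_inv
    have h1 : ((ℓ : ℤ) : Qb) * ((n : ℤ) : Qb) = 1 := by
      have := congrArg Subtype.val hm
      simpa [l₀] using this
    have h2 : (ℓ : ℤ) * n = 1 := by exact_mod_cast h1
    have h3 : (ℓ : ℤ) ∣ 1 := ⟨n, h2.symm⟩
    have h4 : ℓ ∣ 1 := by exact_mod_cast h3
    exact hℓ.one_lt.ne' (Nat.dvd_one.mp h4)
  obtain ⟨A, -, hA⟩ := Ideal.image_subset_nonunits_valuationSubring _ hI
  refine ⟨A, ?_⟩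
  apply hA
  exact ⟨l₀, Ideal.subset_span rfl, rfl⟩

/-! ### The torsion module -/

/-- `E[p]` of the integral model, as in the Prelude -/
abbrev TorsV (W : WeierstrassCurve ℤ) (p : ℕ) : Type :=
  Submodule.torsionBy ℤ (curveQbar W).Point (p : ℤ)

section tors

variable {W : WeierstrassCurve ℤ} {p : ℕ}

lemma torsV_nsmul_eq_zero (x : TorsV W p) : p • (x : (curveQbar W).Point) = 0 :=
  Fermat.Agent.S59.H127.mem_torsionBy_natCast_iff.mp x.2

lemma torsV_coe_nsmul (n : ℕ) (x : TorsV W p) :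
    ((n • x : TorsV W p) : (curveQbar W).Point) = n • (x : (curveQbar W).Point) :=
  Submodule.coe_smul_of_tower n x

lemma torsV_kill (x : TorsV W p) : p • x = 0 :=
  Subtype.ext (by rw [torsV_coe_nsmul]; exact torsV_nsmul_eq_zero x)

lemma torsV_coe_smul (σ : GalQ) (x : TorsV W p) :
    ((σ • x : TorsV W p) : (curveQbar W).Point) = σ • (x : (curveQbar W).Point) := rfl

lemma torsV_natCast_smul (n : ℕ) (x : TorsV W p) : (n : ZMod p) • x = n • x :=
  Nat.cast_smul_eq_nsmul (ZMod p) n x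

lemma torsV_cast_smul [NeZero p] (c : ZMod p) (x : TorsV W p) : c • x = c.val • x := by
  conv_lhs => rw [← ZMod.natCast_zmod_val c]
  exact Nat.cast_smul_eq_nsmul (ZMod p) c.val x

lemma torsV_smul_zmod (σ : GalQ) (c : ZMod p) (x : TorsV W p) : σ • (c • x) = c • (σ • x) :=
  smul_comm σ c x

lemma torsV_smul_nsmul (σ : GalQ) (n : ℕ) (x : TorsV W p) : σ • (n • x) = n • (σ • x) :=
  smul_comm σ n x

/-- the rational centre of the node is Galois-fixed -/
lemma galois_nodeCentre (W : WeierstrassCurve ℤ) (s : GalQ) :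
    s (nodeCentre (curveQbar W)) = nodeCentre (curveQbar W) := by
  unfold nodeCentre
  rw [curveQbar_b₂, curveQbar_b₄, curveQbar_b₆, curveQbar_c₄]
  have h18 : s (18 : Qb) = 18 := map_ofNat s 18
  rw [map_div₀, map_sub, map_mul, map_mul, h18, map_intCast, map_intCast, map_intCast,
    map_intCast]

end tors

/-! ### The Hopf lattice -/

/-- the Hopf lattice on the Prelude's `E[p]` given by flatness -/
theorem exists_lattice_tors {p : ℕ} [Fact p.Prime] (W : WeierstrassCurve ℤ)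
    (hcard : Nat.card (Submodule.torsionBy ℤ
      ((W.map (Int.castRingHom ℚ))⁄(AlgebraicClosure ℚ)).Point p) = p ^ 2)
    (hker : GaloisFactorsThroughFiniteLevel
      (WeierstrassCurve.Affine.Point.galoisRepModuleEnd (K := AlgebraicClosure ℚ) ℚ
        (W.map (Int.castRingHom ℚ)) p))
    (hflat : (GaloisRepAdic.ofResidualGaloisRep
      ((W.map (Int.castRingHom ℚ)).residualGaloisRepOf p hcard hker)).IsFlatAt p) :
    ∃ Λ : Subalgebra (Zl p) (TorsV W p → Qb),
      IsHopfLattice p (fun (σ : GalQ) (x : TorsV W p) => σ • x) Λ := by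
  haveI : NeZero p := ⟨(Fact.out : p.Prime).ne_zero⟩
  have hfinq : Finite (ZMod p ⧸ (⊥ : Ideal (ZMod p))) :=
    Finite.of_surjective (Ideal.Quotient.mk ⊥) Ideal.Quotient.mk_surjective
  have hM := ((Fermat.Agent.S19.H435.isFlatAt_iff_hopfModel _ p).mp hflat).2 ⊥ hfinq
  obtain ⟨Λ, hΛ⟩ := Fermat.Agent.S19.H435.exists_isHopfLattice_of_hopfModel hM
  let ι : TorsV W p →+ TorsV W p ⧸
      ((⊥ : Ideal (ZMod p)) • (⊤ : Submodule (ZMod p) (TorsV W p))) :=
    (Submodule.mkQ _).toAddMonoidHom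
  have hι : Function.Injective ι := by
    intro x y hxy
    have h1 : x - y ∈ (⊥ : Ideal (ZMod p)) • (⊤ : Submodule (ZMod p) (TorsV W p)) :=
      (Submodule.Quotient.eq _).mp hxy
    rw [Submodule.bot_smul, Submodule.mem_bot, sub_eq_zero] at h1
    exact h1
  exact ⟨_, Fermat.Agent.S19.H435.IsHopfLattice.pullback hΛ ι hι
    (fun (σ : GalQ) (x : TorsV W p) => σ • x) (fun σ x => rfl)⟩

/-! ### The contradiction -/

theorem flatPeu_aux (W : WeierstrassCurve ℤ) {p : ℕ} [hp : Fact p.Prime] (hp2 : p ≠ 2)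
    (hΔ : W.Δ ≠ 0) (hbad : (p : ℤ) ∣ W.Δ) (hc₄ : ¬ (p : ℤ) ∣ W.c₄)
    (hpeu : ¬ (p : ℤ) ∣ ((padicValInt p W.Δ : ℕ) : ℤ))
    (hcard : Nat.card (TorsV W p) = p ^ 2)
    (Λ : Subalgebra (Zl p) (TorsV W p → Qb))
    (hΛ : IsHopfLattice p (fun (σ : GalQ) (x : TorsV W p) => σ • x) Λ) : False := by
  classical
  haveI : NeZero p := ⟨hp.out.ne_zero⟩
  obtain ⟨A, hA⟩ := exists_place_h461 p hp.out
  haveI hfin : Finite (TorsV W p) :=
    Nat.finite_of_card_ne_zero (by rw [hcard]; exact pow_ne_zero 2 hp.out.ne_zero)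
  have hW := integralCoeffs W A
  have hc : A.valuation (curveQbar W).c₄ = 1 := by
    rw [curveQbar_c₄]
    exact val_intCast_eq_one hA hp.out hc₄
  have hΔ' : (curveQbar W).Δ ≠ 0 := by
    rw [curveQbar_Δ]
    exact_mod_cast hΔ
  have hMT := multTorsion_curveQbar hp2 hΔ hbad hc₄ hA
  have hval : ∀ σ ∈ A.inertiaSubgroupIn ℚ, ∀ a : Qb, A.valuation (σ a) = A.valuation a :=
    fun σ hσ a => Fermat.Agent.A2.IF.H429.valuation_map_eq A
      (Fermat.Agent.A2.IF.H429.decomp_of_inertia A hσ) a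
  have hpv : A.valuation (p : Qb) < 1 := A.mem_nonunits_iff.mp hA
  -- the line `E[p] ∩ E₁`
  obtain ⟨t₀, ht0, htp, htker, hgen⟩ := exists_generator_mult W A hp2 hΔ hbad hc₄ hA
  set t : TorsV W p := ⟨t₀, Fermat.Agent.S59.H127.mem_torsionBy_natCast_iff.mpr htp⟩ with ht
  have htne : t ≠ 0 := fun h => ht0 (congrArg Subtype.val h)
  have hline : ∀ x : TorsV W p,
      InKer (curveQbar W) A.valuation (x : (curveQbar W).Point) → ∃ n : ℕ, x = n • t := by
    intro x hx
    obtain ⟨n, hn⟩ := hgen x (torsV_nsmul_eq_zero x) hx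
    exact ⟨n, Subtype.ext (by rw [torsV_coe_nsmul, hn])⟩
  have hmove : ∀ σ ∈ A.inertiaSubgroupIn ℚ, ∀ x : TorsV W p, ∃ n : ℕ, σ • x - x = n • t := by
    intro σ hσ x
    apply hline
    exact inKer_smul_sub (W' := (W.map (Int.castRingHom ℚ)).toAffine) (S := ℚ)
      two_ne_zero hW hc hΔ' hMT σ (fun z hz => inertia_val_sub_lt_one hσ z hz) (hval σ hσ) 1
      (x : (curveQbar W).Point) (by rw [pow_one]; exact torsV_nsmul_eq_zero x)
  have hstab : ∀ σ ∈ A.inertiaSubgroupIn ℚ, ∃ n : ℕ, σ • t = n • t := by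
    intro σ hσ
    apply hline
    exact inKer_smul (W' := (W.map (Int.castRingHom ℚ)).toAffine) (S := ℚ) σ (hval σ hσ) htker
  have hkill : ∀ x : TorsV W p, p • x = 0 := torsV_kill
  -- a primitive `p`-th root of unity
  obtain ⟨ζ, hζ⟩ := HasEnoughRootsOfUnity.exists_primitiveRoot Qb p
  -- (FT): `𝓗` fixes `t`
  have hFT := Fermat.Agent.S56.H66.flatTame p hp2 (TorsV W p) (fun σ x => σ • x) Λ hΛ hkill A hA
    t htne hstab
  have hfixt : ∀ s ∈ A.inertiaSubgroupIn ℚ, s ζ = ζ → s • t = t := by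
    intro s hs hsζ
    rcases hFT with h | h
    · exact h s hs
    · have h1 := h s hs 1 (fun μ hμ => by
        obtain ⟨i, -, rfl⟩ := hζ.eq_pow_of_pow_eq_one hμ
        rw [map_pow, hsζ, pow_one])
      rw [one_smul] at h1
      exact h1
  -- a point outside of the kernel of reduction
  obtain ⟨x₀, hx₀⟩ : ∃ x₀ : TorsV W p,
      ¬ InKer (curveQbar W) A.valuation (x₀ : (curveQbar W).Point) := by
    by_contra hcon
    have hall : ∀ x : TorsV W p, InKer (curveQbar W) A.valuation (x : (curveQbar W).Point) := by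
      intro x
      by_contra h
      exact hcon ⟨x, h⟩
    have hcardK := ncard_inKer_mult W A hp2 hΔ hbad hc₄ hA
    set S : Set (curveQbar W).Point :=
      {T | p • T = 0 ∧ InKer (curveQbar W) A.valuation T} with hS
    have hfinS : S.Finite := Set.finite_of_ncard_pos (by rw [hcardK]; exact hp.out.pos)
    have hsub : Set.range (Subtype.val : TorsV W p → (curveQbar W).Point) ⊆ S := by
      rintro _ ⟨x, rfl⟩
      exact ⟨torsV_nsmul_eq_zero x, hall x⟩
    have h1 := Set.ncard_le_ncard hsub hfinS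
    rw [hcardK, ← Set.image_univ, Set.ncard_image_of_injective _ Subtype.val_injective,
      Set.ncard_univ, hcard] at h1
    have := hp.out.one_lt
    nlinarith
  -- the functional
  obtain ⟨f, hf⟩ := Module.Projective.exists_dual_eq_one (ZMod p) htne
  set ξ : TorsV W p →+ ZMod p := f.toAddMonoidHom with hξ
  have hξt : ξ t = 1 := hf
  have hξn : ∀ n : ℕ, ξ (n • t) = (n : ZMod p) := by
    intro n
    rw [map_nsmul, hξt, nsmul_one]
  -- (FU): the unit
  obtain ⟨B, hB1, hB⟩ := Fermat.Agent.S56.H664.flatUnit p (TorsV W p) (fun σ x => σ • x) Λ hΛ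
    hkill A hA ζ hζ (AddSubgroup.zmultiples t)
    (by
      intro σ hσ hσζ y hy
      obtain ⟨k, rfl⟩ := AddSubgroup.mem_zmultiples_iff.mp hy
      show σ • (k • t) = k • t
      rw [smul_comm σ k t, hfixt σ hσ hσζ])
    (by
      intro σ hσ hσζ y
      obtain ⟨n, hn⟩ := hmove σ hσ y
      show σ • y - y ∈ AddSubgroup.zmultiples t
      rw [hn]
      exact (AddSubgroup.zmultiples t).nsmul_mem (AddSubgroup.mem_zmultiples t) n)
    ξ x₀
  -- the node
  obtain ⟨M, he⟩ := exists_nodeModel_h461 hp2 hΔ hbad hc₄ hA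
  obtain ⟨x₁, y₁, h₁, hx₀eq⟩ : ∃ x₁ y₁, ∃ h₁ : (curveQbar W).Nonsingular x₁ y₁,
      (x₀ : (curveQbar W).Point) = Point.some x₁ y₁ h₁ := by
    rcases hh : (x₀ : (curveQbar W).Point) with _ | ⟨x, y, h⟩
    · exact absurd (by rw [hh]; trivial) hx₀
    · exact ⟨x, y, h, rfl⟩
  have hx₁ : A.valuation x₁ ≤ 1 := by
    by_contra hcon
    rw [not_le] at hcon
    apply hx₀
    rw [hx₀eq]
    exact hcon
  have hP : p • Point.some x₁ y₁ h₁ = 0 := by
    rw [← hx₀eq]
    exact torsV_nsmul_eq_zero x₀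
  obtain ⟨m, hm, hX0⟩ := val_pow_of_torsion hp2 hΔ hbad hc₄ hA hpeu M he h₁ hP hx₁
  -- the family
  set X : ZMod p → Qb := fun i =>
    xc ((x₀ + i • t : TorsV W p) : (curveQbar W).Point) - nodeCentre (curveQbar W) with hXdef
  set nfun : GalQ → ZMod p := fun s => ξ (s • x₀ - x₀) with hndef
  have hX0eq : X 0 = x₁ - nodeCentre (curveQbar W) := by
    simp only [hXdef, zero_smul, add_zero]
    rw [hx₀eq, xc_some]
  have hXact : ∀ s ∈ {s : GalQ | s ∈ A.inertiaSubgroupIn ℚ ∧ s ζ = ζ}, ∀ i : ZMod p,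
      s (X i) = X (i + nfun s) := by
    rintro s ⟨hs, hsζ⟩ i
    obtain ⟨n, hn⟩ := hmove s hs x₀
    have hns : nfun s = (n : ZMod p) := by
      simp only [hndef]
      rw [hn, hξn]
    have hpt : s • (x₀ + i • t) = x₀ + (i + nfun s) • t := by
      rw [smul_add, torsV_smul_zmod, hfixt s hs hsζ, hns, add_smul, torsV_natCast_smul, ← hn]
      abel
    simp only [hXdef]
    rw [map_sub, galois_nodeCentre, ← xc_galois_smul, ← torsV_coe_smul, hpt]
  have hdiff : ∀ i : ZMod p, A.valuation (X i - X 0) ^ (p - 1) ≤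
      A.valuation (p : Qb) * A.valuation (X 0) ^ (p - 1) := by
    intro i
    have e : X i - X 0 = xc (Point.some x₁ y₁ h₁ + ((i • t : TorsV W p) : (curveQbar W).Point))
        - x₁ := by
      rw [hX0eq]
      simp only [hXdef]
      rw [Submodule.coe_add, hx₀eq]
      ring
    rw [e, hX0eq]
    refine val_shift_pow_le hp2 hΔ hbad hc₄ hA M he h₁ hP hx₁ _ (torsV_nsmul_eq_zero _) ?_
    rw [torsV_cast_smul, torsV_coe_nsmul]
    exact Fermat.Agent.S13.H64.inKer_nsmul hW htker _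
  refine no_unit_of_family (A := A) (p := p) (fun s : GalQ => (s : Qb →+* Qb))
    {s : GalQ | s ∈ A.inertiaSubgroupIn ℚ ∧ s ζ = ζ} nfun hpv hζ
    (fun s hs => hs.2) (fun s hs a => hval s hs.1 a) X hXact ?_ hm ?_ hdiff B hB1
    (fun s hs => hB s hs.1 hs.2)
  · intro a ha0 hfix
    exact Fermat.Agent.Ribet.H420.inTame_of_fixed A hA a ha0
      (fun s hs hroots => hfix s ⟨hs, hroots ζ hζ.pow_eq_one⟩)
  · rw [hX0eq]
    exact hX0

/-- **FlatPeu.**  Flat at `p` implies peu ramifié at `p`. -/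
theorem flatPeu : Fermat.Agent.S59.H934.FlatPeuStatement := by
  intro p _ hp35 W hΔ hss _hirr hcard hker hflat
  have hpp : p.Prime := Fact.out
  have hp2 : p ≠ 2 := by
    rcases hp35 with h | h <;> omega
  unfold WeierstrassCurve.IsPeuRamifieeAt
  rw [WeierstrassCurve.map_Δ, eq_intCast, padicValRat.of_int]
  by_cases hbad : (p : ℤ) ∣ W.Δ
  swap
  · rw [padicValInt.eq_zero_of_not_dvd hbad]
    simp
  have hc₄ := hss p hpp hbad
  by_contra hpeu
  obtain ⟨Λ, hΛ⟩ := exists_lattice_tors W hcard hker hflat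
  exact flatPeu_aux W hp2 hΔ hbad hc₄ hpeu hcard Λ hΛ

end Fermat.Agent.S59.H461
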