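import Fermat.Agent.S59.H396.OrdData
import Fermat.Agent.Ribet.H187.ELocMain
import Fermat.Agent.Ribet.H420.KerVal
import Fermat.Agent.S13.H64.LineP

/-!
# S59 / LO leaf FlatPeu (helper461): the `p`-torsion in the kernel of reduction, general `W`

`W : WeierstrassCurve ℤ` with multiplicative reduction at the odd prime `p` (`p ∣ Δ`, `p ∤ c₄`),
`A` a valuation subring of `ℚ̄` over `p`, `E = curveQbar W`.  General-`W` versions of the
statements of helper420 for the Frey curve (`Ribet/H420/FreyKer.lean`):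

* `val_xc_of_inKer_mult` : a nonzero `T ∈ E[p] ∩ E₁` has `v p * v (x T) ^ ((p-1)/2) = 1`;
* `exists_generator_mult` : `E[p] ∩ E₁ = {n • t}` for some `t ≠ 0`.
-/

set_option autoImplicit false
set_option linter.unusedSectionVars false
set_option linter.unusedVariables false
set_option linter.style.haveILetI false

namespace Fermat.Agent.S59.H461

open WeierstrassCurve WeierstrassCurve.Affine Polynomial
open Fermat.Agent.S05.SameRed (InKer IntegralCoeffs)
open Fermat.Agent.S51.Five (xc xc_some)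
open Fermat.Agent.S13.H891 (polyW map_polyW dc_polyW torsion_iff_root)
open Fermat.Agent.S59.H396 Fermat.Agent.S59.H899

local notation "Qb" => AlgebraicClosure ℚ

variable (W : WeierstrassCurve ℤ) (A : ValuationSubring Qb)

lemma natCast_mem_maxIdeal_h461 {p : ℕ} (hA : A.LiesOverPrime p) :
    (p : A) ∈ IsLocalRing.maximalIdeal A := by
  rw [ValuationSubring.valuation_lt_one_iff]
  have : A.valuation ((p : ℤ) : Qb) < 1 := val_intCast_lt_one hA (dvd_refl _)
  simpa using this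

lemma modelAt_Δ_mem {p : ℕ} (hA : A.LiesOverPrime p) (hbad : (p : ℤ) ∣ W.Δ) :
    (modelAt W A).Δ ∈ IsLocalRing.maximalIdeal A := by
  rw [ValuationSubring.valuation_lt_one_iff, modelAt_Δ]
  exact val_intCast_lt_one hA hbad

lemma modelAt_c₄_not_mem {p : ℕ} [hp : Fact p.Prime] (hA : A.LiesOverPrime p)
    (hc₄ : ¬ (p : ℤ) ∣ W.c₄) :
    (modelAt W A).c₄ ∉ IsLocalRing.maximalIdeal A := by
  rw [ValuationSubring.valuation_lt_one_iff, modelAt_c₄, val_intCast_eq_one hA hp.out hc₄]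
  exact lt_irrefl _

lemma map_polyW_modelAt (m : ℕ) :
    (polyW W.b₂ W.b₄ W.b₆ W.b₈ m).map (algebraMap ℤ A) = polyWV A (modelAt W A) m := by
  rw [map_polyW, polyWV, modelAt, WeierstrassCurve.map_b₂, WeierstrassCurve.map_b₄,
    WeierstrassCurve.map_b₆, WeierstrassCurve.map_b₈]
  rfl

/-- **The valuation of the `x`-coordinate of a `p`-torsion point in the kernel of reduction.** -/
theorem val_xc_of_inKer_mult {p : ℕ} [hp : Fact p.Prime] (hp2 : p ≠ 2) (hΔ : W.Δ ≠ 0)
    (hbad : (p : ℤ) ∣ W.Δ) (hc₄ : ¬ (p : ℤ) ∣ W.c₄) (hA : A.LiesOverPrime p)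
    (m : ℕ) (hm : p = 2 * m + 1)
    (T : (curveQbar W).Point) (hT0 : T ≠ 0) (hTp : p • T = 0)
    (hker : 1 < A.valuation (xc T)) :
    A.valuation (p : Qb) * A.valuation (xc T) ^ m = 1 := by
  haveI := isElliptic_curveQbar W hΔ
  have hm1 : 1 ≤ m := by have := hp.out.two_le; omega
  have hpv : A.valuation (p : Qb) < 1 := A.mem_nonunits_iff.mp hA
  have hpK : (p : Qb) ≠ 0 := Nat.cast_ne_zero.mpr hp.out.ne_zero
  obtain ⟨hdeg, hlead⟩ := dc_polyW W.b₂ W.b₄ W.b₆ W.b₈ m hm1
  have hres := natDegree_polyWV_res A (modelAt W A) p hp2 (natCast_mem_maxIdeal_h461 A hA)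
    (modelAt_Δ_mem W A hA hbad) (modelAt_c₄_not_mem W A hA hc₄) 1 m hm1 (by rw [pow_one, hm])
  rw [← map_polyW_modelAt, Polynomial.map_map] at hres
  set f : ℤ[X] := polyW W.b₂ W.b₄ W.b₆ W.b₈ m with hf
  set φ : ℤ →+* IsLocalRing.ResidueField A := (IsLocalRing.residue A).comp (algebraMap ℤ A)
    with hφ
  have hcoeff : ∀ k, (f.map φ).coeff k = 0 ↔ A.valuation ((f.coeff k : ℤ) : Qb) < 1 := by
    intro k
    rw [Polynomial.coeff_map, hφ, RingHom.comp_apply, IsLocalRing.residue_eq_zero_iff,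
      ValuationSubring.valuation_lt_one_iff]
    simp
  have hD : 2 * m ^ 2 + 2 * m - m = 2 * m ^ 2 + m := by omega
  have hroot : (f.map (Int.castRingHom Qb)).eval (xc T) = 0 := by
    rw [hf, Fermat.Agent.Ribet.H187.map_intCast_polyW]
    exact (torsion_iff_root hT0 m).mp (by rw [← hm]; exact hTp)
  refine Fermat.Agent.Ribet.H420.val_root_of_two_slopes A.valuation hp.out hpv hpK f
    (2 * m ^ 2 + 2 * m) m (by omega) (by nlinarith) hdeg (by rw [hlead, hm]) ?_ ?_ (xc T) hker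
    hroot
  · rw [hD]
    have hne : (f.map φ).coeff (2 * m ^ 2 + m) ≠ 0 := by
      rw [← hres]
      apply Polynomial.leadingCoeff_ne_zero.mpr
      intro h0
      rw [h0, Polynomial.natDegree_zero] at hres
      nlinarith
    rw [Ne, hcoeff, not_lt] at hne
    exact le_antisymm (Fermat.Agent.Ribet.H187.val_intCast_le_one A.valuation _) hne
  · intro k hk
    rw [← hcoeff]
    apply Polynomial.coeff_eq_zero_of_natDegree_lt
    rw [hres]
    omega

/-- `E[p]` meets the kernel of reduction in exactly `p` points. -/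
theorem ncard_inKer_mult {p : ℕ} [hp : Fact p.Prime] (hp2 : p ≠ 2) (hΔ : W.Δ ≠ 0)
    (hbad : (p : ℤ) ∣ W.Δ) (hc₄ : ¬ (p : ℤ) ∣ W.c₄) (hA : A.LiesOverPrime p) :
    Set.ncard {T : (curveQbar W).Point | p • T = 0 ∧ InKer (curveQbar W) A.valuation T} = p := by
  have h := (multTorsion_curveQbar hp2 hΔ hbad hc₄ hA).card 1
  simpa using h

/-- **`E[p] ∩ E₁` is cyclic of order `p`.** -/
theorem exists_generator_mult {p : ℕ} [hp : Fact p.Prime] (hp2 : p ≠ 2) (hΔ : W.Δ ≠ 0)
    (hbad : (p : ℤ) ∣ W.Δ) (hc₄ : ¬ (p : ℤ) ∣ W.c₄) (hA : A.LiesOverPrime p) :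
    ∃ t : (curveQbar W).Point, t ≠ 0 ∧ p • t = 0 ∧ InKer (curveQbar W) A.valuation t ∧
      ∀ T : (curveQbar W).Point, p • T = 0 → InKer (curveQbar W) A.valuation T →
        ∃ n : ℕ, T = n • t := by
  classical
  have hcard := ncard_inKer_mult W A hp2 hΔ hbad hc₄ hA
  set S : Set (curveQbar W).Point :=
    {T | p • T = 0 ∧ InKer (curveQbar W) A.valuation T} with hS
  have hp1 : 1 < p := hp.out.one_lt
  have hfin : S.Finite := Set.finite_of_ncard_pos (by rw [hcard]; exact hp.out.pos)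
  obtain ⟨t, htS, ht0⟩ := Set.exists_ne_of_one_lt_ncard (by rw [hcard]; exact hp1)
    (0 : (curveQbar W).Point)
  have hW := integralCoeffs W A
  refine ⟨t, ht0, htS.1, htS.2, ?_⟩
  have hord : addOrderOf t = p := addOrderOf_eq_prime htS.1 ht0
  set I : Set (curveQbar W).Point := (fun n : ℕ => n • t) '' (Set.Iio p) with hI
  have hIsub : I ⊆ S := by
    rintro _ ⟨n, -, rfl⟩
    refine ⟨?_, Fermat.Agent.S13.H64.inKer_nsmul hW htS.2 n⟩
    rw [smul_comm, htS.1]
    exact nsmul_zero n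
  have hinj : Set.InjOn (fun n : ℕ => n • t) (Set.Iio p) := by
    have := nsmul_injOn_Iio_addOrderOf (x := t)
    rwa [hord] at this
  have hIcard : I.ncard = p := by
    rw [hI, Set.InjOn.ncard_image hinj]
    simp [Set.ncard_eq_toFinset_card']
  have hIS : I = S := Set.eq_of_subset_of_ncard_le hIsub (by rw [hIcard, hcard]) hfin
  intro T hT hTker
  have hTS : T ∈ S := ⟨hT, hTker⟩
  rw [← hIS] at hTS
  obtain ⟨n, -, rfl⟩ := hTS
  exact ⟨n, rfl⟩

end Fermat.Agent.S59.H461
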