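import Fermat.Agent.Ribet.H420.Resolvent

/-!
# S59 / LO leaf FlatPeu (helper461), abstract part: "peu ramifié" excludes "très ramifié"

`A` a valuation subring of a field `L` of characteristic `0` over `p`, `ζ` a primitive `p`-th root
of unity, `𝓗` a set of field automorphisms preserving the valuation and fixing `ζ`, such that all
nonzero `𝓗`-fixed elements have tame valuation (`InTame`, helper420).  Let `X : ZMod p → L` be a
family permuted by `𝓗` through translations `i ↦ i + n s`, with

* `v (X 0) ^ p = v p ^ m`, `p ∤ m`                          (non-tame valuation),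
* `v (X i - X 0) ^ (p - 1) ≤ v p * v (X 0) ^ (p - 1)`        (maximal ramification break).

Then there is NO unit `B` with `s B = ζ ^ (n s) B` for all `s ∈ 𝓗` (`no_unit_of_family`).

Proof.  If `n = 0` on `𝓗`, `X 0` is fixed, hence tame: contradiction.  Otherwise `X` is injective
and `B = ∑_{j < p} κ_j (X 0) ^ j` with `𝓗`-fixed `κ_j` (Lagrange interpolation through the points
`(X i, ζ ^ i B)`).  The nonzero terms have pairwise distinct valuations, so `v κ₀ = 1` and
`v (κ_j (X 0) ^ j) < 1` for `j ≥ 1`; applying `s - 1` with `n s ≠ 0` gives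
`v (ζ - 1) = v (s B - B) < v (X (n s) - X 0) / v (X 0)`, against the second hypothesis.
-/

set_option autoImplicit false
set_option linter.unusedSectionVars false
set_option linter.unusedVariables false
set_option linter.style.haveILetI false

namespace Fermat.Agent.S59.H461

open Finset Polynomial
open Fermat.Agent.Ribet.H420 (InTame)

variable {L : Type*} [Field L] [CharZero L] {A : ValuationSubring L} {p : ℕ} [hp : Fact p.Prime]

/-- If `v x ^ p = v p ^ m` with `p ∤ m` then no power `v x ^ d`, `0 < d < p`, is tame. -/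
lemma not_inTame_pow_of_pow_eq (hpv : A.valuation (p : L) < 1) {x : L} {m : ℤ}
    (hm : ¬ (p : ℤ) ∣ m) (hx : A.valuation x ^ p = A.valuation (p : L) ^ m)
    {d : ℕ} (hd0 : 0 < d) (hdp : d < p) : ¬ InTame A p (A.valuation x ^ d) := by
  rintro ⟨k, hk⟩
  have hp0 : A.valuation (p : L) ≠ 0 := by
    rw [Ne, map_eq_zero]; exact_mod_cast hp.out.ne_zero
  have hppos : 0 < A.valuation (p : L) := zero_lt_iff.mpr hp0
  have h1 : A.valuation (p : L) ^ (m * (d * (p - 1) : ℕ)) = A.valuation (p : L) ^ (k * p) := by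
    rw [zpow_mul, ← hx, zpow_natCast, ← pow_mul, zpow_mul, ← hk, zpow_natCast, ← pow_mul,
      ← pow_mul]
    congr 1
    ring
  have h2 := zpow_right_injective₀ hppos hpv.ne h1
  have h3 : (p : ℤ) ∣ m * ((d * (p - 1) : ℕ) : ℤ) := ⟨k, by rw [h2]; ring⟩
  have hpp : Prime (p : ℤ) := Nat.prime_iff_prime_int.mp hp.out
  rcases hpp.dvd_or_dvd h3 with h | h
  · exact hm h
  · have h4 : p ∣ d * (p - 1) := by exact_mod_cast h
    rcases (Nat.Prime.dvd_mul hp.out).mp h4 with h5 | h5
    · exact absurd (Nat.le_of_dvd hd0 h5) (not_le.mpr hdp)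
    · have := Nat.le_of_dvd (by have := hp.out.two_le; omega) h5
      have := hp.out.two_le
      omega

/-- In `ZMod p`, every element is a multiple of a nonzero element. -/
lemma exists_nsmul_eq_zmod {a : ZMod p} (ha : a ≠ 0) (t : ZMod p) : ∃ k : ℕ, k • a = t := by
  refine ⟨(t / a).val, ?_⟩
  rw [nsmul_eq_mul, ZMod.natCast_zmod_val, div_mul_cancel₀ t ha]

/-- **"Peu ramifié" excludes "très ramifié".** -/
theorem no_unit_of_family {G : Type*} (act : G → L →+* L) (𝓗 : Set G) (n : G → ZMod p)
    (hpv : A.valuation (p : L) < 1)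
    {ζ : L} (hζ : IsPrimitiveRoot ζ p) (hfixζ : ∀ s ∈ 𝓗, act s ζ = ζ)
    (hval : ∀ s ∈ 𝓗, ∀ a : L, A.valuation (act s a) = A.valuation a)
    (X : ZMod p → L) (hX : ∀ s ∈ 𝓗, ∀ i, act s (X i) = X (i + n s))
    (hVG : ∀ a : L, a ≠ 0 → (∀ s ∈ 𝓗, act s a = a) → InTame A p (A.valuation a))
    {m : ℤ} (hm : ¬ (p : ℤ) ∣ m) (hX0 : A.valuation (X 0) ^ p = A.valuation (p : L) ^ m)
    (hdiff : ∀ i, A.valuation (X i - X 0) ^ (p - 1) ≤
      A.valuation (p : L) * A.valuation (X 0) ^ (p - 1))
    (B : L) (hB1 : A.valuation B = 1) (hB : ∀ s ∈ 𝓗, act s B = ζ ^ (n s).val * B) :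
    False := by
  classical
  haveI : NeZero p := ⟨hp.out.ne_zero⟩
  have hp0 : A.valuation (p : L) ≠ 0 := by
    rw [Ne, map_eq_zero]; exact_mod_cast hp.out.ne_zero
  have hnt : ∀ d : ℕ, 0 < d → d < p → ¬ InTame A p (A.valuation (X 0) ^ d) :=
    fun d h1 h2 => not_inTame_pow_of_pow_eq hpv hm hX0 h1 h2
  have hX0ne : X 0 ≠ 0 := by
    intro h
    rw [h, map_zero, zero_pow hp.out.ne_zero] at hX0
    exact zpow_ne_zero m hp0 hX0.symm
  have hvX0 : A.valuation (X 0) ≠ 0 := (_root_.map_ne_zero _).mpr hX0ne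
  have hvX0pos : 0 < A.valuation (X 0) := zero_lt_iff.mpr hvX0
  have hB0 : B ≠ 0 := by
    intro h
    rw [h, map_zero] at hB1
    exact zero_ne_one hB1
  have hfixed_contra : (∀ s ∈ 𝓗, act s (X 0) = X 0) → False := fun hfix =>
    hnt 1 one_pos hp.out.one_lt (by rw [pow_one]; exact hVG (X 0) hX0ne hfix)
  by_cases hn : ∀ s ∈ 𝓗, n s = 0
  · exact hfixed_contra fun s hs => by rw [hX s hs, hn s hs, add_zero]
  rw [not_forall] at hn
  obtain ⟨s, hn⟩ := hn
  rw [Classical.not_imp] at hn
  obtain ⟨hs, hns⟩ := hn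
  -- injectivity of `X`
  have hinj : Function.Injective X := by
    intro i j hij
    by_contra hne
    have hper : ∀ k : ℕ, X (i + k • n s) = X (j + k • n s) := by
      intro k
      induction k with
      | zero => simpa using hij
      | succ k ih =>
        have h1 := congrArg (act s) ih
        rw [hX s hs, hX s hs] at h1
        rw [succ_nsmul, ← add_assoc, ← add_assoc]
        exact h1
    have hshift : ∀ t, X (i + t) = X (j + t) := fun t => by
      obtain ⟨k, rfl⟩ := exists_nsmul_eq_zmod hns t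
      exact hper k
    have hd : ∀ t, X (t + (i - j)) = X t := by
      intro t
      have h1 := hshift (t - j)
      rw [show i + (t - j) = t + (i - j) by ring, show j + (t - j) = t by ring] at h1
      exact h1
    have hdk : ∀ (k : ℕ) (t : ZMod p), X (t + k • (i - j)) = X t := by
      intro k
      induction k with
      | zero => intro t; simp
      | succ k ih => intro t; rw [succ_nsmul, ← add_assoc, hd, ih]
    have hconst : ∀ t, X t = X 0 := by
      intro t
      obtain ⟨k, rfl⟩ := exists_nsmul_eq_zmod (sub_ne_zero.mpr hne) t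
      have h1 := hdk k 0
      rwa [zero_add] at h1
    exact hfixed_contra fun s' hs' => by rw [hX s' hs', hconst]
  -- Lagrange interpolation
  set r : ZMod p → L := fun i => ζ ^ i.val * B with hr_def
  set Q : L[X] := Lagrange.interpolate (Finset.univ : Finset (ZMod p)) X r with hQ_def
  have hinjOn : Set.InjOn X (↑(Finset.univ : Finset (ZMod p))) := hinj.injOn
  have hcard : (Finset.univ : Finset (ZMod p)).card = p := by
    rw [Finset.card_univ, ZMod.card]
  have hQdeg : Q.degree < ((Finset.univ : Finset (ZMod p)).card : WithBot ℕ) :=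
    Lagrange.degree_interpolate_lt (r := r) hinjOn
  have hQeval : ∀ i, Q.eval (X i) = r i := fun i =>
    Lagrange.eval_interpolate_at_node r hinjOn (Finset.mem_univ i)
  have hr : ∀ s' ∈ 𝓗, ∀ i, act s' (r i) = r (i + n s') := by
    intro s' hs' i
    simp only [hr_def]
    rw [map_mul, map_pow, hfixζ s' hs', hB s' hs', ← mul_assoc, ← pow_add, ZMod.val_add,
      ← pow_eq_pow_mod _ hζ.pow_eq_one]
  have hQfix : ∀ s' ∈ 𝓗, Q.map (act s') = Q := by
    intro s' hs'
    refine Polynomial.eq_of_degrees_lt_of_eval_index_eq (Finset.univ : Finset (ZMod p)) hinjOn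
      (lt_of_le_of_lt Polynomial.degree_map_le hQdeg) hQdeg ?_
    intro i _
    have h1 : (Q.map (act s')).eval (act s' (X (i - n s'))) = act s' (Q.eval (X (i - n s'))) :=
      Polynomial.eval_map_apply _ _
    rw [hX s' hs', sub_add_cancel, hQeval, hr s' hs', sub_add_cancel] at h1
    rw [h1, hQeval]
  have hκfix : ∀ j : ℕ, ∀ s' ∈ 𝓗, act s' (Q.coeff j) = Q.coeff j := by
    intro j s' hs'
    have h1 := congrArg (fun q : L[X] => q.coeff j) (hQfix s' hs')
    simpa [Polynomial.coeff_map] using h1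
  have hQ0 : Q ≠ 0 := by
    intro h
    have h1 := hQeval 0
    rw [h, Polynomial.eval_zero] at h1
    simp only [hr_def, ZMod.val_zero, pow_zero, one_mul] at h1
    exact hB0 h1.symm
  have hQnat : Q.natDegree < p := by
    have h1 := (Polynomial.natDegree_lt_iff_degree_lt hQ0).mpr hQdeg
    rwa [hcard] at h1
  -- the expansion of `B`
  set T : ℕ → L := fun j => Q.coeff j * X 0 ^ j with hT_def
  have hBsum : B = ∑ j ∈ Finset.range p, T j := by
    have h1 := hQeval 0
    simp only [hr_def, ZMod.val_zero, pow_zero, one_mul] at h1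
    rw [← h1, Polynomial.eval_eq_sum_range' hQnat]
  have hκtame : ∀ j : ℕ, Q.coeff j ≠ 0 → InTame A p (A.valuation (Q.coeff j)) :=
    fun j hj => hVG _ hj (hκfix j)
  have hTval : ∀ j, A.valuation (T j) = A.valuation (Q.coeff j) * A.valuation (X 0) ^ j := by
    intro j
    simp only [hT_def, map_mul, map_pow]
  have hdist : ∀ i j : ℕ, i < j → j < p → Q.coeff i ≠ 0 → Q.coeff j ≠ 0 →
      A.valuation (T i) ≠ A.valuation (T j) := by
    intro i j hij hjp hi hj heq
    rw [hTval, hTval] at heq
    have hvi : A.valuation (Q.coeff i) ≠ 0 := (_root_.map_ne_zero _).mpr hi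
    have hvj : A.valuation (Q.coeff j) ≠ 0 := (_root_.map_ne_zero _).mpr hj
    have h1 : A.valuation (X 0) ^ (j - i) =
        A.valuation (Q.coeff i) * (A.valuation (Q.coeff j))⁻¹ := by
      have h2 : A.valuation (X 0) ^ j = A.valuation (X 0) ^ (j - i) * A.valuation (X 0) ^ i := by
        rw [← pow_add]; congr 1; omega
      have h3 : A.valuation (X 0) ^ i ≠ 0 := pow_ne_zero _ hvX0
      have h4 : A.valuation (Q.coeff i) =
          A.valuation (Q.coeff j) * A.valuation (X 0) ^ (j - i) :=
        mul_right_cancel₀ h3 (by rw [heq, h2, mul_assoc])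
      rw [h4, mul_comm, ← mul_assoc, inv_mul_cancel₀ hvj, one_mul]
    apply hnt (j - i) (by omega) (by omega)
    rw [h1]
    exact (hκtame i hi).mul (hκtame j hj).inv hp0
  -- the dominant term
  obtain ⟨i₀, hi₀mem, hi₀max⟩ := Finset.exists_max_image (Finset.range p)
    (fun j => A.valuation (T j)) ⟨0, Finset.mem_range.mpr hp.out.pos⟩
  have hTi₀ : T i₀ ≠ 0 := by
    intro h
    apply hB0
    rw [hBsum]
    apply Finset.sum_eq_zero
    intro j hj
    have h1 := hi₀max j hj
    simp only [h, map_zero] at h1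
    exact (map_eq_zero _).mp (le_antisymm h1 zero_le)
  have hκi₀ : Q.coeff i₀ ≠ 0 := fun h => hTi₀ (by simp only [hT_def, h, zero_mul])
  have hlt : ∀ j ∈ Finset.range p, j ≠ i₀ → A.valuation (T j) < A.valuation (T i₀) := by
    intro j hj hne
    by_cases hκj : Q.coeff j = 0
    · have h1 : T j = 0 := by simp only [hT_def, hκj, zero_mul]
      rw [h1, map_zero]
      exact zero_lt_iff.mpr ((_root_.map_ne_zero _).mpr hTi₀)
    · refine lt_of_le_of_ne (hi₀max j hj) ?_
      rcases lt_or_gt_of_ne hne with h | h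
      · exact hdist j i₀ h (Finset.mem_range.mp hi₀mem) hκj hκi₀
      · exact (hdist i₀ j h (Finset.mem_range.mp hj) hκi₀ hκj).symm
  have hvB : A.valuation B = A.valuation (T i₀) := by
    rw [hBsum]
    apply Valuation.map_sum_eq_of_lt _ hi₀mem
    intro j hj
    rw [Finset.mem_sdiff, Finset.mem_singleton] at hj
    exact hlt j hj.1 hj.2
  have hi₀ : i₀ = 0 := by
    by_contra hne
    apply hnt i₀ (Nat.pos_of_ne_zero hne) (Finset.mem_range.mp hi₀mem)
    have h1 : A.valuation (X 0) ^ i₀ = (A.valuation (Q.coeff i₀))⁻¹ := by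
      have h2 : A.valuation (Q.coeff i₀) * A.valuation (X 0) ^ i₀ = 1 := by
        rw [← hTval, ← hvB, hB1]
      exact eq_inv_of_mul_eq_one_right h2
    rw [h1]
    exact (hκtame i₀ hκi₀).inv
  rw [hi₀] at hvB hlt
  have hT1 : ∀ j ∈ Finset.range p, j ≠ 0 → A.valuation (T j) < 1 := by
    intro j hj hne
    have := hlt j hj hne
    rwa [← hvB, hB1] at this
  -- apply `s - 1`
  have hsX0 : act s (X 0) = X (n s) := by rw [hX s hs, zero_add]
  have hXne : X (n s) - X 0 ≠ 0 := sub_ne_zero.mpr fun h => hns (hinj h)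
  set δ := A.valuation (X (n s) - X 0) with hδ_def
  have hδ0 : δ ≠ 0 := (_root_.map_ne_zero _).mpr hXne
  have hδpos : 0 < δ := zero_lt_iff.mpr hδ0
  have hvXa : A.valuation (X (n s)) = A.valuation (X 0) := by rw [← hsX0, hval s hs]
  have hsB : act s B - B = ∑ j ∈ Finset.range p, Q.coeff j * (X (n s) ^ j - X 0 ^ j) := by
    conv_lhs => rw [hBsum]
    rw [map_sum, ← Finset.sum_sub_distrib]
    apply Finset.sum_congr rfl
    intro j _
    simp only [hT_def]
    rw [map_mul, map_pow, hκfix j s hs, hsX0]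
    ring
  have hterm : ∀ j ∈ Finset.range p,
      A.valuation (Q.coeff j * (X (n s) ^ j - X 0 ^ j)) < δ / A.valuation (X 0) := by
    intro j hj
    have hrpos : 0 < δ / A.valuation (X 0) := div_pos hδpos hvX0pos
    rcases Nat.eq_zero_or_pos j with rfl | hjpos
    · simpa using hrpos
    have hgeom : X (n s) ^ j - X 0 ^ j =
        (∑ i ∈ Finset.range j, X (n s) ^ i * X 0 ^ (j - 1 - i)) * (X (n s) - X 0) :=
      (geom_sum₂_mul (X (n s)) (X 0) j).symm
    have hS : A.valuation (∑ i ∈ Finset.range j, X (n s) ^ i * X 0 ^ (j - 1 - i)) ≤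
        A.valuation (X 0) ^ (j - 1) := by
      apply Valuation.map_sum_le
      intro i hi
      rw [map_mul, map_pow, map_pow, hvXa, ← pow_add]
      have : i + (j - 1 - i) = j - 1 := by have := Finset.mem_range.mp hi; omega
      rw [this]
    have hTj := hT1 j hj hjpos.ne'
    rw [hTval] at hTj
    have hsplit : A.valuation (X 0) ^ j = A.valuation (X 0) ^ (j - 1) * A.valuation (X 0) := by
      rw [← pow_succ]; congr 1; omega
    rw [hsplit, ← mul_assoc] at hTj
    have h5 : A.valuation (Q.coeff j) * A.valuation (X 0) ^ (j - 1) < (A.valuation (X 0))⁻¹ := by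
      have h6 := (lt_inv_mul_iff₀' hvX0pos).mpr hTj
      rwa [mul_one] at h6
    rw [hgeom, map_mul, map_mul, div_eq_mul_inv, mul_comm δ]
    calc A.valuation (Q.coeff j) *
          (A.valuation (∑ i ∈ Finset.range j, X (n s) ^ i * X 0 ^ (j - 1 - i)) * δ)
        ≤ A.valuation (Q.coeff j) * (A.valuation (X 0) ^ (j - 1) * δ) := by gcongr
      _ = (A.valuation (Q.coeff j) * A.valuation (X 0) ^ (j - 1)) * δ := by rw [mul_assoc]
      _ < (A.valuation (X 0))⁻¹ * δ := mul_lt_mul_of_pos_right h5 hδpos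
  have hlam : A.valuation (act s B - B) = A.valuation (ζ - 1) := by
    rw [hB s hs]
    have h1 : ζ ^ (n s).val * B - B = (ζ ^ (n s).val - 1) * B := by ring
    rw [h1, map_mul, hB1, mul_one]
    apply Fermat.Agent.S14.H366.val_root_pow_sub_one hp.out hζ
    intro hdvd
    have h2 : (n s).val < p := ZMod.val_lt _
    have h3 : (n s).val ≠ 0 := fun h => hns ((ZMod.val_eq_zero _).mp h)
    exact absurd (Nat.le_of_dvd (Nat.pos_of_ne_zero h3) hdvd) (not_le.mpr h2)
  have hfin : A.valuation (ζ - 1) < δ / A.valuation (X 0) := by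
    rw [← hlam, hsB]
    exact Valuation.map_sum_lt _ (div_pos hδpos hvX0pos).ne' hterm
  have hfin2 : A.valuation (ζ - 1) * A.valuation (X 0) < δ := (lt_div_iff₀ hvX0pos).mp hfin
  have hp1 : p - 1 ≠ 0 := by have := hp.out.two_le; omega
  have hfin3 := pow_lt_pow_left₀ hfin2 zero_le hp1
  rw [mul_pow, Fermat.Agent.S14.H366.val_lam_pow hp.out hζ] at hfin3
  exact absurd (hdiff (n s)) (not_le.mpr hfin3)

end Fermat.Agent.S59.H461
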